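import Mathlib
import Fermat.Agent.Deuring.Data

set_option autoImplicit false

noncomputable section

/-! Descent of Kummer generators along an extension with equal residual degree. -/

open Module Fermat.Agent.Deuring

namespace Fermat.Agent.S18aux

variable {K F F₁ k F' F₁' : Type*} [Field K] [Field F] [Field F₁] [Field k] [Field F'] [Field F₁']
variable [Algebra K F] [Algebra K F₁] [Algebra F F₁] [IsScalarTower K F F₁]
variable [Algebra k F'] [Algebra k F₁'] [Algebra F' F₁'] [IsScalarTower k F' F₁']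

/-- Compatibility of two reduction data along `F → F₁`, `F' → F₁'`. -/
structure Compat (G : GaussData K F k F') (G₁ : GaussData K F₁ k F₁') : Prop where
  A_eq : G₁.A = G.A
  mem_iff : ∀ x : F, algebraMap F F₁ x ∈ G₁.O ↔ x ∈ G.O
  ρ_eq : ∀ (x : F) (h : x ∈ G.O),
    G₁.ρ ⟨algebraMap F F₁ x, (mem_iff x).2 h⟩ = algebraMap F' F₁' (G.ρ ⟨x, h⟩)

variable {G : GaussData K F k F'} {G₁ : GaussData K F₁ k F₁'}

theorem smul_mem_of_valuation {G : GaussData K F k F'} {x y : F}
    (hxy : G.O.valuation x ≤ G.O.valuation y) {c : K} (hy : c • y ∈ G.O) : c • x ∈ G.O := by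
  rw [← ValuationSubring.valuation_le_one_iff] at hy ⊢
  rw [Algebra.smul_def, map_mul] at hy ⊢
  exact (mul_le_mul_right hxy _).trans hy

omit [IsScalarTower K F F₁] [IsScalarTower k F' F₁'] in
theorem Compat.ρ_sum (C : Compat G G₁) {ι : Type*} (s : Finset ι) (e : ι → G₁.O)
    (a : ι → F) (ha : ∀ i, a i ∈ G.O) (h : ∑ i ∈ s, algebraMap F F₁ (a i) * (e i : F₁) ∈ G₁.O) :
    G₁.ρ ⟨∑ i ∈ s, algebraMap F F₁ (a i) * (e i : F₁), h⟩ =
      ∑ i ∈ s, G.ρ ⟨a i, ha i⟩ • G₁.ρ (e i) := by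
  have h1 : (⟨∑ i ∈ s, algebraMap F F₁ (a i) * (e i : F₁), h⟩ : G₁.O) =
      ∑ i ∈ s, (⟨algebraMap F F₁ (a i), (C.mem_iff _).2 (ha i)⟩ : G₁.O) * e i := by
    apply Subtype.ext
    push_cast
    rfl
  rw [h1, map_sum]
  apply Finset.sum_congr rfl
  intro i _
  rw [map_mul, C.ρ_eq, Algebra.smul_def]

/-- coefficients are integral -/
theorem Compat.coef_mem (C : Compat G G₁) {ι : Type*} [Fintype ι] (e : ι → G₁.O)
    (he : LinearIndependent F' (fun i => G₁.ρ (e i))) (a : ι → F)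
    (h : ∑ i, algebraMap F F₁ (a i) * (e i : F₁) ∈ G₁.O) (i : ι) : a i ∈ G.O := by
  classical
  by_contra hi
  obtain ⟨j, _, hj⟩ := Finset.exists_max_image Finset.univ (fun j => G.O.valuation (a j))
    ⟨i, Finset.mem_univ i⟩
  have hjO : a j ∉ G.O := by
    intro h
    apply hi
    rw [← ValuationSubring.valuation_le_one_iff] at h ⊢
    exact (hj i (Finset.mem_univ i)).trans h
  have hj0 : a j ≠ 0 := fun h => hjO (h ▸ G.O.zero_mem)
  obtain ⟨c, hc0, hcj, hne⟩ := G.exists_scale hj0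
  have hcmem : ∀ l, c • a l ∈ G.O := fun l =>
    smul_mem_of_valuation (hj l (Finset.mem_univ l)) hcj
  have hcinv : c⁻¹ ∉ G.A := by
    intro h
    apply hjO
    have := G.smul_mem h hcj
    rwa [smul_smul, inv_mul_cancel₀ hc0, one_smul] at this
  have hcA : c ∈ G.A := by
    rcases G.A.mem_or_inv_mem c with h | h
    · exact h
    · exact absurd h hcinv
  have hcn : c ∈ G.A.nonunits := by
    rw [ValuationSubring.mem_nonunits_iff]
    have h2 : 1 < G.A.valuation c⁻¹ := by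
      rw [← not_le, ValuationSubring.valuation_le_one_iff]
      exact hcinv
    rw [map_inv₀] at h2
    exact (one_lt_inv₀ (by
      rw [zero_lt_iff, Valuation.ne_zero_iff]
      exact hc0)).mp h2
  have hcA₁ : c ∈ G₁.A := C.A_eq ▸ hcA
  have hcn₁ : c ∈ G₁.A.nonunits := by
    rw [C.A_eq]
    exact hcn
  have hres : G₁.res ⟨c, hcA₁⟩ = 0 := (G₁.res_eq_zero_iff _).mpr hcn₁
  have hsum : c • (∑ i, algebraMap F F₁ (a i) * (e i : F₁)) =
      ∑ i, algebraMap F F₁ (c • a i) * (e i : F₁) := by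
    rw [Finset.smul_sum]
    apply Finset.sum_congr rfl
    intro l _
    rw [Algebra.smul_def, Algebra.smul_def, map_mul, ← IsScalarTower.algebraMap_apply, mul_assoc]
  have hcs : c • (∑ i, algebraMap F F₁ (a i) * (e i : F₁)) ∈ G₁.O := G₁.smul_mem hcA₁ h
  have hcs' : ∑ i, algebraMap F F₁ (c • a i) * (e i : F₁) ∈ G₁.O := by
    rw [← hsum]
    exact hcs
  have h1 := G₁.ρ_smul hcA₁ h hcs
  rw [hres, zero_smul] at h1
  have h2 := C.ρ_sum Finset.univ e (fun i => c • a i) hcmem hcs'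
  have h3 : (⟨c • (∑ i, algebraMap F F₁ (a i) * (e i : F₁)), hcs⟩ : G₁.O) =
      ⟨∑ i, algebraMap F F₁ (c • a i) * (e i : F₁), hcs'⟩ :=
    Subtype.ext hsum
  rw [h3, h2] at h1
  exact hne (Fintype.linearIndependent_iff.mp he _ h1 j)

theorem Compat.linearIndependent (C : Compat G G₁) {ι : Type*} [Fintype ι] (e : ι → G₁.O)
    (he : LinearIndependent F' (fun i => G₁.ρ (e i))) :
    LinearIndependent F (fun i => (e i : F₁)) := by
  rw [Fintype.linearIndependent_iff]
  intro a ha i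
  by_contra hi
  obtain ⟨c, hc0, hci, hne⟩ := G.exists_scale hi
  have hsum : ∑ i, algebraMap F F₁ (c • a i) * (e i : F₁) = 0 := by
    have : ∑ i, algebraMap F F₁ (c • a i) * (e i : F₁) = algebraMap K F₁ c *
        ∑ i, a i • (e i : F₁) := by
      rw [Finset.mul_sum]
      apply Finset.sum_congr rfl
      intro l _
      rw [Algebra.smul_def, Algebra.smul_def, map_mul, ← IsScalarTower.algebraMap_apply, mul_assoc]
    rw [this, ha, mul_zero]
  have hmem : ∑ i, algebraMap F F₁ (c • a i) * (e i : F₁) ∈ G₁.O := hsum ▸ zero_mem _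
  have h1 := C.coef_mem e he _ hmem
  have h2 := C.ρ_sum Finset.univ e (fun i => c • a i) h1 hmem
  have h3 : (⟨∑ i, algebraMap F F₁ (c • a i) * (e i : F₁), hmem⟩ : G₁.O) = 0 := Subtype.ext hsum
  rw [h3, map_zero] at h2
  exact hne (Fintype.linearIndependent_iff.mp he _ h2.symm i)

/-- Kummer descent: if `u ^ m ∈ F`, the reduction of `u` lies in `F'`, and the degree of `F₁/F`
is at most that of `F₁'/F'`, then `u ∈ F`. -/
theorem Compat.exists_of_pow_mem (C : Compat G G₁) [FiniteDimensional F F₁]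
    (hdeg : finrank F F₁ ≤ finrank F' F₁') {u : F₁} (hu : u ∈ G₁.O) {h : F'}
    (hh : G₁.ρ ⟨u, hu⟩ = algebraMap F' F₁' h) (h0 : h ≠ 0) {m : ℕ} (hm : (m : k) ≠ 0) {f : F}
    (hf : u ^ m = algebraMap F F₁ f) : ∃ a : F, algebraMap F F₁ a = u := by
  classical
  have hfin' : FiniteDimensional F' F₁' :=
    FiniteDimensional.of_finrank_pos (lt_of_lt_of_le finrank_pos hdeg)
  have hs : LinearIndepOn F' id ({1} : Set F₁') := by
    rw [linearIndepOn_singleton_iff]
    exact one_ne_zero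
  let b := Basis.extend hs
  let ι := ↥(hs.extend (Set.subset_univ _))
  have hbι : ∀ i : ι, b i = i.1 := fun i => Basis.extend_apply_self hs i
  have hfinι : Finite ι := Module.Finite.finite_basis b
  have : Fintype ι := Fintype.ofFinite ι
  let i₀ : ι := ⟨1, hs.subset_extend _ (Set.mem_singleton 1)⟩
  have hbi₀ : b i₀ = 1 := hbι i₀
  choose e₀ he₀ using fun i : ι => G₁.ρ_surj (b i)
  let e : ι → G₁.O := Function.update e₀ i₀ 1
  have hei₀ : e i₀ = 1 := Function.update_self ..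
  have hρe : ∀ i, G₁.ρ (e i) = b i := by
    intro i
    by_cases hi : i = i₀
    · rw [hi, hei₀, map_one, hbi₀]
    · change G₁.ρ (Function.update e₀ i₀ 1 i) = _
      rw [Function.update_of_ne hi, he₀]
  have hli : LinearIndependent F' (fun i => G₁.ρ (e i)) := by
    have : (fun i => G₁.ρ (e i)) = b := funext hρe
    rw [this]
    exact b.linearIndependent
  have hliF := C.linearIndependent e hli
  have hcard : Fintype.card ι = finrank F F₁ := by
    apply le_antisymm hliF.fintype_card_le_finrank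
    rw [← Module.finrank_eq_card_basis b]
    exact hdeg
  let B : Basis ι F F₁ := basisOfLinearIndependentOfCardEqFinrank' _ hliF hcard
  have hB : ∀ i, B i = e i := by
    intro i
    exact congrFun (coe_basisOfLinearIndependentOfCardEqFinrank' _ hliF hcard) i
  set a : ι → F := fun i => B.repr u i with ha
  have hsum : ∑ i, algebraMap F F₁ (a i) * (e i : F₁) = u := by
    conv_rhs => rw [← B.sum_repr u]
    apply Finset.sum_congr rfl
    intro i _
    rw [hB, Algebra.smul_def]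
  have hmem : ∑ i, algebraMap F F₁ (a i) * (e i : F₁) ∈ G₁.O := hsum ▸ hu
  have haO := C.coef_mem e hli a hmem
  have hred : ∑ i, G.ρ ⟨a i, haO i⟩ • b i = h • b i₀ := by
    have h1 := C.ρ_sum Finset.univ e a haO hmem
    have h2 : (⟨_, hmem⟩ : G₁.O) = ⟨u, hu⟩ := Subtype.ext hsum
    rw [h2, hh] at h1
    simp only [hρe] at h1
    rw [← h1, hbi₀, Algebra.smul_def, mul_one]
  have hρa : ∀ i, G.ρ ⟨a i, haO i⟩ = if i = i₀ then h else 0 := by
    intro i
    have h1 := congrArg (fun z => b.repr z i) hred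
    simp only [map_sum, map_smul, Basis.repr_self, Finsupp.coe_finsetSum, Finset.sum_apply,
      Finsupp.smul_apply, Finsupp.single_apply, smul_eq_mul] at h1
    rw [Finset.sum_eq_single i (fun j _ hj => by rw [if_neg hj, mul_zero])
      (fun h => absurd (Finset.mem_univ i) h), if_pos rfl, mul_one] at h1
    rw [h1]
    by_cases hi : i = i₀
    · rw [if_pos hi.symm, if_pos hi, mul_one]
    · rw [if_neg (Ne.symm hi), if_neg hi, mul_zero]
  refine ⟨a i₀, ?_⟩
  -- the difference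
  set δ : F₁ := u - algebraMap F F₁ (a i₀) with hδ
  have hδsum : δ = ∑ i, algebraMap F F₁ (if i = i₀ then 0 else a i) * (e i : F₁) := by
    have h1 : ∑ i, algebraMap F F₁ (if i = i₀ then a i else 0) * (e i : F₁) =
        algebraMap F F₁ (a i₀) := by
      rw [Finset.sum_eq_single i₀ (fun j _ hj => by rw [if_neg hj, map_zero, zero_mul])
        (fun h => absurd (Finset.mem_univ i₀) h), if_pos rfl, hei₀]
      exact mul_one _
    rw [hδ, ← h1, sub_eq_iff_eq_add, ← Finset.sum_add_distrib]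
    nth_rw 1 [← hsum]
    apply Finset.sum_congr rfl
    intro i _
    rw [← add_mul, ← map_add]
    congr 2
    split_ifs <;> simp
  by_contra hne
  have hδ0 : δ ≠ 0 := fun h => hne (sub_eq_zero.mp h).symm
  obtain ⟨c, hc0, hcδ, hcne⟩ := G₁.exists_scale hδ0
  -- coefficients of `c • δ`
  have hcsum : c • δ = ∑ i, algebraMap F F₁ (c • (if i = i₀ then 0 else a i)) * (e i : F₁) := by
    rw [hδsum, Finset.smul_sum]
    apply Finset.sum_congr rfl
    intro l _
    rw [Algebra.smul_def, Algebra.smul_def, map_mul, ← IsScalarTower.algebraMap_apply, mul_assoc]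
  have hcmem : ∑ i, algebraMap F F₁ (c • (if i = i₀ then 0 else a i)) * (e i : F₁) ∈ G₁.O :=
    hcsum ▸ hcδ
  have hcO := C.coef_mem e hli _ hcmem
  have hcρ := C.ρ_sum Finset.univ e _ hcO hcmem
  have haiO : algebraMap F F₁ (a i₀) ∈ G₁.O := (C.mem_iff _).2 (haO i₀)
  have hδO : δ ∈ G₁.O := sub_mem hu haiO
  have hρδ : G₁.ρ ⟨δ, hδO⟩ = 0 := by
    have h1 : (⟨δ, hδO⟩ : G₁.O) = ⟨u, hu⟩ - ⟨algebraMap F F₁ (a i₀), haiO⟩ := Subtype.ext rfl
    rw [h1, map_sub, hh, C.ρ_eq _ (haO i₀), hρa, if_pos rfl, sub_self]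
  -- expand the power
  obtain ⟨z, hz⟩ := Polynomial.powAddExpansion (⟨algebraMap F F₁ (a i₀), haiO⟩ : G₁.O)
    (⟨δ, hδO⟩ : G₁.O) m
  have hz' : algebraMap F F₁ (c • (f - a i₀ ^ m)) =
      ((((m : G₁.O) * (⟨algebraMap F F₁ (a i₀), haiO⟩ : G₁.O) ^ (m - 1) +
        z * (⟨δ, hδO⟩ : G₁.O)) * (⟨c • δ, hcδ⟩ : G₁.O) : G₁.O) : F₁) := by
    have h1 := congrArg (Subtype.val) hz
    push_cast at h1
    have h2 : algebraMap F F₁ (a i₀) + δ = u := by rw [hδ]; ring
    rw [h2, hf] at h1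
    rw [Algebra.smul_def, map_mul, map_sub, map_pow, h1, ← IsScalarTower.algebraMap_apply]
    push_cast
    rw [Algebra.smul_def]
    ring
  have hgO : c • (f - a i₀ ^ m) ∈ G.O := by
    rw [← C.mem_iff, hz']
    exact Subtype.prop _
  have hgρ : algebraMap F' F₁' (G.ρ ⟨c • (f - a i₀ ^ m), hgO⟩) =
      (m : F₁') * algebraMap F' F₁' h ^ (m - 1) * G₁.ρ ⟨c • δ, hcδ⟩ := by
    rw [← C.ρ_eq _ hgO]
    have h1 : (⟨algebraMap F F₁ (c • (f - a i₀ ^ m)), (C.mem_iff _).2 hgO⟩ : G₁.O) =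
      ((m : G₁.O) * (⟨algebraMap F F₁ (a i₀), haiO⟩ : G₁.O) ^ (m - 1) +
        z * (⟨δ, hδO⟩ : G₁.O)) * (⟨c • δ, hcδ⟩ : G₁.O) := Subtype.ext hz'
    rw [h1, map_mul, map_add, map_mul, map_mul, hρδ, mul_zero, add_zero, map_pow, map_natCast,
      C.ρ_eq _ (haO i₀), hρa, if_pos rfl]
  -- so the reduction of `c • δ` lies in `F'`
  have hmF : (m : F₁') * algebraMap F' F₁' h ^ (m - 1) =
      algebraMap F' F₁' ((m : F') * h ^ (m - 1)) := by
    rw [map_mul, map_natCast, map_pow]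
  have hmF0 : (m : F') * h ^ (m - 1) ≠ 0 := by
    apply mul_ne_zero
    · rw [← map_natCast (algebraMap k F')]
      exact (map_ne_zero_iff _ (algebraMap k F').injective).mpr hm
    · exact pow_ne_zero _ h0
  have hfinal : G₁.ρ ⟨c • δ, hcδ⟩ =
      (((m : F') * h ^ (m - 1))⁻¹ * G.ρ ⟨c • (f - a i₀ ^ m), hgO⟩) • b i₀ := by
    rw [hbi₀, Algebra.smul_def _ (1 : F₁'), mul_one, map_mul, hgρ, hmF, map_inv₀, ← mul_assoc,
      inv_mul_cancel₀ ((map_ne_zero_iff _ (algebraMap F' F₁').injective).mpr hmF0), one_mul]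
  have hsumρ : G₁.ρ ⟨c • δ, hcδ⟩ =
      ∑ i, G.ρ ⟨c • (if i = i₀ then 0 else a i), hcO i⟩ • b i := by
    have h1 : (⟨c • δ, hcδ⟩ : G₁.O) = ⟨_, hcmem⟩ := Subtype.ext hcsum
    rw [h1, hcρ]
    simp only [hρe]
  have hcoef : ∀ i, G.ρ ⟨c • (if i = i₀ then 0 else a i), hcO i⟩ =
      if i = i₀ then ((m : F') * h ^ (m - 1))⁻¹ * G.ρ ⟨c • (f - a i₀ ^ m), hgO⟩ else 0 := by
    intro i
    have h1 := congrArg (fun z => b.repr z i) (hsumρ.symm.trans hfinal)
    simp only [map_sum, map_smul, Basis.repr_self, Finsupp.coe_finsetSum, Finset.sum_apply,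
      Finsupp.smul_apply, Finsupp.single_apply, smul_eq_mul] at h1
    rw [Finset.sum_eq_single i (fun j _ hj => by rw [if_neg hj, mul_zero])
      (fun h => absurd (Finset.mem_univ i) h), if_pos rfl, mul_one] at h1
    rw [h1]
    by_cases hi : i = i₀
    · rw [if_pos hi.symm, if_pos hi, mul_one]
    · rw [if_neg (Ne.symm hi), if_neg hi, mul_zero]
  have hzero : ((m : F') * h ^ (m - 1))⁻¹ * G.ρ ⟨c • (f - a i₀ ^ m), hgO⟩ = 0 := by
    rw [← (hcoef i₀).trans (if_pos rfl)]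
    have h2 : (⟨c • (if i₀ = i₀ then 0 else a i₀), hcO i₀⟩ : G.O) = 0 := by
      apply Subtype.ext
      simp
    rw [h2, map_zero]
  apply hcne
  rw [hfinal, hzero, zero_smul]

end Fermat.Agent.S18aux
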