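import Mathlib
import Fermat.Agent.S18.Descent
import Fermat.Agent.Deuring.Genus
import Fermat.Agent.RedInj.Torsion
import Fermat.Prelude.Def_AlgebraicCurve_DivisorPushPull

set_option autoImplicit false

noncomputable section

/-! Torsion injectivity of the reduction in Kummer form, and its descent. -/

open Module AlgebraicCurve Fermat.Agent.Deuring
open Fermat.Agent.FF Fermat.Agent.RR

namespace Fermat.Agent.S18aux

section Def

variable {K F k F' : Type*} [Field K] [Field F] [Field k] [Field F'] [Algebra K F] [Algebra k F']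

/-- Torsion injectivity of reduction in Kummer form: if `m D = div f`, `m` is prime to the residue
characteristic and the reduction of `f` is an `m`-th power, then `D` is principal. -/
def TorsKummer (G : GaussData K F k F') : Prop :=
  ∀ (m : ℕ) (D : Divisor K F) (f : F) (hf : f ∈ G.O) (h : F'), (m : k) ≠ 0 →
    (∀ v : Place K F, (m : ℤ) * D v = v.ord f) → h ≠ 0 → G.ρ ⟨f, hf⟩ = h ^ m →
      Divisor.IsPrincipal D

/-- an element all of whose orders vanish is a constant -/
theorem exists_const [IsFF K F] [IsAlgClosed K] {f : F} (hf : ∀ v : Place K F, v.ord f = 0) :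
    ∃ c : K, f = algebraMap K F c :=
  RedInj.exists_eq_algebraMap_of_ord_nonneg (fun v => (hf v).ge)

/-- same divisor up to a constant -/
theorem exists_const_mul [IsFF K F] [IsAlgClosed K] {f g : F} (hf0 : f ≠ 0) (hg0 : g ≠ 0)
    (hf : ∀ v : Place K F, v.ord f = v.ord g) :
    ∃ c : K, c ≠ 0 ∧ f = algebraMap K F c * g := by
  obtain ⟨c, hc⟩ := exists_const (f := f / g) (K := K) (by
    intro v
    rw [div_eq_mul_inv, v.ord_mul hf0 (inv_ne_zero hg0), v.ord_inv, hf v]
    ring)
  refine ⟨c, ?_, ?_⟩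
  · rintro rfl
    rw [map_zero, div_eq_zero_iff] at hc
    exact hc.elim hf0 hg0
  · rw [← hc, div_mul_cancel₀ _ hg0]

end Def

section OfRed

variable {K F k F' : Type*} [Field K] [Field F] [Field k] [Field F'] [Algebra K F] [Algebra k F']
variable (G : GaussData K F k F')

/-- adaptor -/
def toRedField : RedInj.RedField K F k F' where
  A := G.A
  resA := G.res
  O := G.O
  rho := G.ρ
  resA_surj := G.res_surj
  rho_surj := G.ρ_surj
  mem_iff := G.mem_O_iff
  rho_algebraMap := G.ρ_algebraMap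
  exists_basis V _ := by
    obtain ⟨b, hb, hli⟩ := G.ortho V
    exact ⟨finrank K V, fun i => ⟨_, hb i⟩, fun i => (b i).2, hli, rfl⟩

theorem toRedField_red {x : F} (hx : x ∈ G.O) : (toRedField G).red x = G.ρ ⟨x, hx⟩ :=
  (toRedField G).red_of_mem hx

variable [HasPrincipalDivisors K F] [HasPrincipalDivisors k F']

/-- adaptor -/
def toRedData {G : GaussData K F k F'} (R : RedMap G) : RedInj.RedData K F k F' where
  toRedField := toRedField G
  r := R.r
  r_nonneg := R.nonneg
  degree_r := R.degree_r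
  r_div x D hx hne hD w := by
    have hred : (toRedField G).red x = G.ρ ⟨x, hx⟩ := toRedField_red G hx
    rw [hred] at hne ⊢
    have h1 : D = div x := by
      ext v
      rw [hD v, div_apply]
    rw [h1, R.r_div x hx hne, div_apply]

end OfRed

section OfRed2

variable {K F k F' : Type*} [Field K] [Field F] [Field k] [Field F'] [Algebra K F] [Algebra k F']
variable (G : GaussData K F k F')
variable [IsFF K F] [IsFF k F'] [IsAlgClosed K] [IsAlgClosed k]

/-- `T(F)` under the genus inequality (good reduction). -/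
theorem torsKummer_of_genus_le (hg : genusFF K F ≤ genusFF k F') : TorsKummer G := by
  intro m D f hf h hm hD h0 hh
  obtain ⟨R, _⟩ := G.exists_redMap_of_le hg
  have hm0 : (m : ℤ) ≠ 0 := by
    rintro h
    apply hm
    have : m = 0 := by exact_mod_cast h
    rw [this, Nat.cast_zero]
  have hmD : m • D = div f := by
    ext v
    rw [div_apply, ← hD v, Finsupp.smul_apply, nsmul_eq_mul]
  have hρ0 : G.ρ ⟨f, hf⟩ ≠ 0 := by
    rw [hh]
    exact pow_ne_zero _ h0
  have hf0 : f ≠ 0 := by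
    rintro rfl
    apply hρ0
    exact map_zero G.ρ
  have hdeg : Divisor.degree D = 0 := by
    have h1 : Divisor.degree (m • D) = 0 := by rw [hmD, degree_div]
    rw [map_nsmul, nsmul_eq_mul] at h1
    exact (mul_eq_zero.mp h1).resolve_left hm0
  refine (toRedData R).isPrincipal_of_torsion hg hm hdeg ⟨f, hf0, fun v => ?_⟩ ⟨h, h0, fun w => ?_⟩
  · rw [hmD, div_apply]
  · change R.r D w = w.ord h
    have h1 : m • R.r D = div (h ^ m) := by
      rw [← map_nsmul, hmD, R.r_div f hf hρ0, hh]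
    have h2 := DFunLike.congr_fun h1 w
    rw [div_apply, FF.ord_pow, Finsupp.smul_apply, nsmul_eq_mul] at h2
    exact mul_left_cancel₀ hm0 h2

end OfRed2

section Desc

variable {K F F₁ k F' F₁' : Type*} [Field K] [Field F] [Field F₁] [Field k] [Field F'] [Field F₁']
variable [Algebra K F] [Algebra K F₁] [Algebra F F₁] [IsScalarTower K F F₁]
variable [Algebra k F'] [Algebra k F₁'] [Algebra F' F₁'] [IsScalarTower k F' F₁']
variable {G : GaussData K F k F'} {G₁ : GaussData K F₁ k F₁'}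

/-- An `m`-th root of an `m`-th power of an element of `F'` is in `F'`. -/
theorem exists_of_pow_eq_pow [IsAlgClosed k] {m : ℕ} (hm : m ≠ 0) {x : F₁'} {h : F'} (h0 : h ≠ 0)
    (hx : x ^ m = algebraMap F' F₁' h ^ m) :
    ∃ c : k, c ≠ 0 ∧ x = algebraMap F' F₁' (algebraMap k F' c * h) := by
  have h0' : algebraMap F' F₁' h ≠ 0 := (map_ne_zero_iff _ (algebraMap F' F₁').injective).mpr h0
  have h1 : (x / algebraMap F' F₁' h) ^ m = 1 := by
    rw [div_pow, hx, div_self (pow_ne_zero _ h0')]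
  obtain ⟨c, hc⟩ : ∃ c : k, algebraMap k F₁' c = x / algebraMap F' F₁' h := by
    have halg : IsAlgebraic k (x / algebraMap F' F₁' h) := by
      refine ⟨Polynomial.X ^ m - 1, ?_, by simp [h1]⟩
      exact (Polynomial.monic_X_pow_sub_C (1 : k) hm).ne_zero
    have h2 : IsIntegral k (x / algebraMap F' F₁' h) := halg.isIntegral
    have : Algebra.IsIntegral k (Algebra.adjoin k {x / algebraMap F' F₁' h}) :=
      Algebra.IsIntegral.adjoin (by
        intro y hy
        rw [Set.mem_singleton_iff] at hy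
        rw [hy]
        exact h2)
    obtain ⟨c, hc⟩ := (IsAlgClosed.algebraMap_bijective_of_isIntegral (k := k)
      (K := Algebra.adjoin k {x / algebraMap F' F₁' h})).2
      ⟨_, Algebra.self_mem_adjoin_singleton k _⟩
    exact ⟨c, congrArg Subtype.val hc⟩
  refine ⟨c, ?_, ?_⟩
  · rintro rfl
    rw [map_zero] at hc
    rw [← hc, zero_pow hm] at h1
    exact zero_ne_one h1
  · rw [map_mul, ← IsScalarTower.algebraMap_apply, hc, div_mul_cancel₀ _ h0']

theorem mem_O_of_pow_mem {G : GaussData K F k F'} {x : F} {m : ℕ} (hm : m ≠ 0)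
    (hx : x ^ m ∈ G.O) : x ∈ G.O := by
  rw [← ValuationSubring.valuation_le_one_iff] at hx ⊢
  rw [map_pow] at hx
  exact (pow_le_one_iff hm).mp hx

/-- Descent of `T`. -/
theorem TorsKummer.descend [IsFF K F₁] [IsAlgClosed K] [IsAlgClosed k] (T : TorsKummer G₁)
    (C : Compat G G₁) [FiniteDimensional F F₁] (hdeg : finrank F F₁ ≤ finrank F' F₁') :
    TorsKummer G := by
  intro m D f hf h hm hD h0 hh
  have hm0 : m ≠ 0 := by
    rintro rfl
    exact hm Nat.cast_zero
  have hfO : algebraMap F F₁ f ∈ G₁.O := (C.mem_iff f).2 hf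
  have hρ : G₁.ρ ⟨algebraMap F F₁ f, hfO⟩ = algebraMap F' F₁' h ^ m := by
    rw [C.ρ_eq f hf, hh, map_pow]
  have h0' : algebraMap F' F₁' h ≠ 0 := (map_ne_zero_iff _ (algebraMap F' F₁').injective).mpr h0
  have hf0 : algebraMap F F₁ f ≠ 0 := by
    intro h1
    have h2 : (⟨algebraMap F F₁ f, hfO⟩ : G₁.O) = 0 := Subtype.ext h1
    rw [h2, map_zero] at hρ
    exact pow_ne_zero _ h0' hρ.symm
  obtain ⟨u, hu0, hu⟩ := T m (Divisor.pullback F₁ D) (algebraMap F F₁ f) hfO (algebraMap F' F₁' h) hm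
    (by
      intro w
      rw [Divisor.pullback_apply, Place.ord_restrict, ← hD]
      ring) h0' hρ
  -- `f = c u ^ m`
  obtain ⟨c, hc0, hc⟩ := exists_const_mul (K := K) (f := algebraMap F F₁ f) (g := u ^ m) hf0
    (pow_ne_zero _ hu0) (by
      intro w
      rw [FF.ord_pow, ← hu w, Divisor.pullback_apply, Place.ord_restrict, ← hD]
      ring)
  obtain ⟨d, hd⟩ := IsAlgClosed.exists_pow_nat_eq c (Nat.pos_of_ne_zero hm0)
  have hpow : (algebraMap K F₁ d * u) ^ m = algebraMap F F₁ f := by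
    rw [mul_pow, ← map_pow, hd, hc]
  have huO : algebraMap K F₁ d * u ∈ G₁.O := mem_O_of_pow_mem hm0 (by rw [hpow]; exact hfO)
  have hρu : G₁.ρ ⟨_, huO⟩ ^ m = algebraMap F' F₁' h ^ m := by
    rw [← map_pow, ← hρ]
    congr 1
    exact Subtype.ext hpow
  obtain ⟨z, hz0, hz⟩ := exists_of_pow_eq_pow (k := k) hm0 h0 hρu
  obtain ⟨a, ha⟩ := C.exists_of_pow_mem hdeg huO hz (mul_ne_zero
    ((map_ne_zero_iff _ (algebraMap k F').injective).mpr hz0) h0) hm hpow
  have ham : a ^ m = f := by
    apply (algebraMap F F₁).injective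
    rw [map_pow, ha, hpow]
  have ha0 : a ≠ 0 := by
    rintro rfl
    rw [zero_pow hm0] at ham
    rw [← ham, map_zero] at hf0
    exact hf0 rfl
  refine ⟨a, ha0, fun v => ?_⟩
  have h1 := hD v
  rw [← ham, FF.ord_pow] at h1
  exact mul_left_cancel₀ (by exact_mod_cast hm0) h1

end Desc

section DescHom

open scoped IntermediateField

/-- tower law over `K(y)` -/
theorem finrank_adjoin_mul {K F F₁ : Type*} [Field K] [Field F] [Field F₁]
    [Algebra K F] [Algebra K F₁] [Algebra F F₁] [IsScalarTower K F F₁] (y : F) :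
    finrank K⟮y⟯ F * finrank F F₁ = finrank K⟮algebraMap F F₁ y⟯ F₁ := by
  rw [Module.finrank_mul_finrank]
  have h1 : K⟮y⟯.map (IsScalarTower.toAlgHom K F F₁) = K⟮algebraMap F F₁ y⟯ := by
    rw [IntermediateField.adjoin_map, Set.image_singleton]
    rfl
  let e : K⟮y⟯ ≃ₐ[K] K⟮algebraMap F F₁ y⟯ :=
    (IntermediateField.equivMap K⟮y⟯ (IsScalarTower.toAlgHom K F F₁)).trans
      (IntermediateField.equivOfEq h1)
  refine Algebra.finrank_eq_of_equiv_equiv e.toRingEquiv (RingEquiv.refl F₁) ?_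
  ext z
  rfl

variable {K F F₁ k F' F₁' : Type*} [Field K] [Field F] [Field F₁] [Field k] [Field F'] [Field F₁']
variable [Algebra K F] [Algebra K F₁]
variable [Algebra k F'] [Algebra k F₁']
variable {G : GaussData K F k F'} {G₁ : GaussData K F₁ k F₁'}

/-- Descent of `T` along `K`-embeddings. -/
theorem TorsKummer.descend_hom [IsFF K F₁] [IsAlgClosed K] [IsAlgClosed k] (T : TorsKummer G₁)
    (φ : F →ₐ[K] F₁) (φ' : F' →ₐ[k] F₁') (hA : G₁.A = G.A)
    (hmem : ∀ x, φ x ∈ G₁.O ↔ x ∈ G.O)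
    (hρ : ∀ (x : F) (h : x ∈ G.O), G₁.ρ ⟨φ x, (hmem x).2 h⟩ = φ' (G.ρ ⟨x, h⟩))
    (y : F) (y' : F') (hy : Transcendental K y)
    (h1 : 0 < finrank K⟮y⟯ F) (h2 : finrank K⟮y⟯ F = finrank k⟮y'⟯ F')
    (h3 : finrank K⟮φ y⟯ F₁ = finrank k⟮φ' y'⟯ F₁') :
    TorsKummer G := by
  let _ : Algebra F F₁ := φ.toRingHom.toAlgebra
  let _ : Algebra F' F₁' := φ'.toRingHom.toAlgebra
  have : IsScalarTower K F F₁ := IsScalarTower.of_algebraMap_eq fun x => (φ.commutes x).symm
  have : IsScalarTower k F' F₁' := IsScalarTower.of_algebraMap_eq fun x => (φ'.commutes x).symm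
  have : FiniteDimensional F F₁ := IsFF.finiteDimensional_of_tower (K := K) F ⟨y, hy⟩
  have e1 := finrank_adjoin_mul (K := K) (F₁ := F₁) y
  have e2 := finrank_adjoin_mul (K := k) (F₁ := F₁') y'
  change _ = finrank K⟮φ y⟯ F₁ at e1
  change _ = finrank k⟮φ' y'⟯ F₁' at e2
  rw [h3, h2] at e1
  rw [← e1] at e2
  have hdeg : finrank F F₁ ≤ finrank F' F₁' := (Nat.eq_of_mul_eq_mul_left (h2 ▸ h1) e2).ge
  have C : Compat G G₁ := ⟨hA, hmem, hρ⟩
  exact T.descend C hdeg

end DescHom

end Fermat.Agent.S18aux
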