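import Mathlib
import Fermat.Agent.S18.Kummer
import Fermat.Agent.GaussVal.Modular
import Fermat.Agent.EC.RedFrob
import Fermat.Agent.X0Emb.Emb

set_option autoImplicit false

noncomputable section

/-! `T(N)` for the function field of `X₀(N)`, from the degree theorem (H3) and the genus
inequality (H2) at some multiple of `N`. -/

open Module AlgebraicCurve ModularCurve Fermat.Agent.Deuring
open scoped IntermediateField Fermat.Agent.GaussVal
open Fermat.Agent.FF Fermat.Agent.RR Fermat.Agent.GaussVal

namespace Fermat.Agent.S18aux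

section Level

/-- the coefficient field -/
abbrev KK : Type := AlgebraicClosure ℚ

theorem bar_eq (N : ℕ) : modularFunctionFieldBar N = modularFunctionFieldFullC KK N :=
  X0Emb.FF_eq N

theorem isAlgebraic_KK : Algebra.IsAlgebraic ℚ KK := by
  have h := AlgebraicClosure.isAlgebraic ℚ
  have e : (AlgebraicClosure.instAlgebra ℚ : Algebra ℚ (AlgebraicClosure ℚ)) =
    DivisionRing.toRatAlgebra := Subsingleton.elim _ _
  rw [e] at h
  exact h

local instance : Algebra.IsAlgebraic ℚ KK := isAlgebraic_KK

/-- (H3) at level `N`: the degree over the `j`-line is preserved by reduction. -/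
def DegEq (A : ValuationSubring KK) (N : ℕ) : Prop :=
  0 < finrank KK⟮jEl KK (modularFunctionFieldBar N) N (bar_eq N)⟯ (modularFunctionFieldBar N) ∧
  finrank KK⟮jEl KK (modularFunctionFieldBar N) N (bar_eq N)⟯ (modularFunctionFieldBar N) =
    finrank (IsLocalRing.ResidueField A)⟮jEl (IsLocalRing.ResidueField A) _ N rfl⟯
      (modularFunctionFieldFullC (IsLocalRing.ResidueField A) N)

variable {A : ValuationSubring KK} {ℓ : ℕ} (hℓ : ℓ.Prime) (hA : A.LiesOverPrime ℓ)
variable {N N' : ℕ}

theorem DegEq.fin (h : DegEq A N) :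
    FiniteDimensional KK⟮jEl KK (modularFunctionFieldBar N) N (bar_eq N)⟯
      (modularFunctionFieldBar N) :=
  FiniteDimensional.of_finrank_pos h.1

theorem DegEq.fin' (h : DegEq A N) :
    FiniteDimensional (IsLocalRing.ResidueField A)⟮jEl (IsLocalRing.ResidueField A) _ N rfl⟯
      (modularFunctionFieldFullC (IsLocalRing.ResidueField A) N) :=
  FiniteDimensional.of_finrank_pos (by rw [← h.2]; exact h.1)

theorem DegEq.isFF (h : DegEq A N) : IsFF KK (modularFunctionFieldBar N) := by
  have := h.fin
  exact IsFF.of_finite (transcendental_jEl KK _ N (bar_eq N))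

theorem DegEq.isFF' (h : DegEq A N) : IsFF (IsLocalRing.ResidueField A)
    (modularFunctionFieldFullC (IsLocalRing.ResidueField A) N) := by
  have := h.fin'
  exact IsFF.of_finite (transcendental_jEl _ _ N rfl)

/-- The reduction data at level `N`. -/
def modG (h : DegEq A N) :
    GaussData KK (modularFunctionFieldBar N) (IsLocalRing.ResidueField A)
      (modularFunctionFieldFullC (IsLocalRing.ResidueField A) N) :=
  haveI := h.fin
  modGauss hℓ hA (modularFunctionFieldBar N) N (bar_eq N) h.2.le

theorem modG_A (h : DegEq A N) : (modG hℓ hA h).A = A := rfl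

theorem mem_modG_O {h : DegEq A N} {x : modularFunctionFieldBar N} :
    x ∈ (modG hℓ hA h).O ↔ (x : LaurentSeries KK) ∈ gaussSubring A := Iff.rfl

theorem coe_modG_ρ {h : DegEq A N} (x : (modG hℓ hA h).O) :
    ((modG hℓ hA h).ρ x : LaurentSeries (IsLocalRing.ResidueField A)) =
      gaussRed A ⟨((x : modularFunctionFieldBar N) : LaurentSeries KK), x.2⟩ :=
  haveI := h.fin
  coe_modGauss_ρ (hE := bar_eq N) (hdeg := h.2.le) x

theorem coe_modG_ρ' {h : DegEq A N} {x : modularFunctionFieldBar N}
    (hx : x ∈ (modG hℓ hA h).O) {y : LaurentSeries KK} (hy : y ∈ gaussSubring A)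
    (hxy : (x : LaurentSeries KK) = y) :
    ((modG hℓ hA h).ρ ⟨x, hx⟩ : LaurentSeries (IsLocalRing.ResidueField A)) =
      gaussRed A ⟨y, hy⟩ := by
  subst hxy
  exact coe_modG_ρ hℓ hA ⟨x, hx⟩

theorem bar_le (hN : N ≠ 0) (hN' : N' ≠ 0) (hd : N ∣ N') :
    modularFunctionFieldBar N ≤ modularFunctionFieldBar N' := by
  haveI : NeZero N := ⟨hN⟩
  haveI : NeZero N' := ⟨hN'⟩
  rw [bar_eq, bar_eq]
  exact full_degeneracyC_le KK hd

theorem full_le (k : Type*) [Field k] (hN : N ≠ 0) (hN' : N' ≠ 0) (hd : N ∣ N') :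
    modularFunctionFieldFullC k N ≤ modularFunctionFieldFullC k N' := by
  haveI : NeZero N := ⟨hN⟩
  haveI : NeZero N' := ⟨hN'⟩
  exact full_degeneracyC_le k hd

/-- Descent of `T` from level `N'` to level `N ∣ N'`. -/
theorem torsKummer_of_dvd (hN' : N' ≠ 0) (hd : N ∣ N') (h : DegEq A N) (h' : DegEq A N')
    (T : TorsKummer (modG hℓ hA h')) : TorsKummer (modG hℓ hA h) := by
  have hN : N ≠ 0 := by
    rintro rfl
    exact hN' (Nat.eq_zero_of_zero_dvd hd)
  have := h'.isFF
  have hmem : ∀ x : modularFunctionFieldBar N,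
      IntermediateField.inclusion (bar_le hN hN' hd) x ∈ (modG hℓ hA h').O ↔
        x ∈ (modG hℓ hA h).O := by
    intro x
    rw [mem_modG_O, mem_modG_O, IntermediateField.coe_inclusion]
  refine T.descend_hom (G := modG hℓ hA h) (IntermediateField.inclusion (bar_le hN hN' hd))
    (IntermediateField.inclusion (full_le _ hN hN' hd)) ((modG_A hℓ hA h').trans
      (modG_A hℓ hA h).symm) hmem (fun x hx => ?_)
    (jEl KK (modularFunctionFieldBar N) N (bar_eq N)) (jEl _ _ N rfl)
    (transcendental_jEl KK _ N (bar_eq N)) h.1 h.2 h'.2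
  have hx' : (x : LaurentSeries KK) ∈ gaussSubring A := (mem_modG_O hℓ hA).mp hx
  apply Subtype.ext
  rw [IntermediateField.coe_inclusion, coe_modG_ρ' hℓ hA hx hx' rfl]
  exact coe_modG_ρ' hℓ hA ((hmem x).2 hx) hx' (IntermediateField.coe_inclusion _ _)

/-- `T(N)` from (H3) and the genus inequality at a multiple `N'` of `N`. -/
theorem torsKummer_of_genus (hN' : N' ≠ 0) (hd : N ∣ N') (h : DegEq A N) (h' : DegEq A N')
    (hg : genusFF KK (modularFunctionFieldBar N') ≤ genusFF (IsLocalRing.ResidueField A)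
      (modularFunctionFieldFullC (IsLocalRing.ResidueField A) N')) :
    TorsKummer (modG hℓ hA h) := by
  have := h'.isFF
  have := h'.isFF'
  exact torsKummer_of_dvd hℓ hA hN' hd h h' (torsKummer_of_genus_le _ hg)

end Level

end Fermat.Agent.S18aux
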