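import Mathlib
import Fermat.Agent.S18.Kummer

set_option autoImplicit false

noncomputable section

/-! From an abstract place reduction to the Kummer form. -/

open Module AlgebraicCurve Fermat.Agent.Deuring
open Fermat.Agent.FF Fermat.Agent.RR

namespace Fermat.Agent.S18aux

variable {K F k F' : Type*} [Field K] [Field F] [Field k] [Field F'] [Algebra K F] [Algebra k F']

/-- `E` is the divisor of a function of nonzero reduction, whose divisor is `r_* E`. -/
def GoodDiv (G : GaussData K F k F') (r : Place K F → Place k F') (E : Divisor K F) : Prop :=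
  ∃ (f : F) (hf : f ∈ G.O), G.ρ ⟨f, hf⟩ ≠ 0 ∧ (∀ P : Place K F, E P = P.ord f) ∧
    ∀ Q : Place k F', Finsupp.mapDomain r E Q = Q.ord (G.ρ ⟨f, hf⟩)

theorem ne_zero_of_ρ {G : GaussData K F k F'} {f : F} (hf : f ∈ G.O) (h : G.ρ ⟨f, hf⟩ ≠ 0) :
    f ≠ 0 := by
  rintro rfl
  exact h (map_zero G.ρ)

theorem GoodDiv.of_closure {G : GaussData K F k F'} {r : Place K F → Place k F'}
    {S : Set (Divisor K F)} (hS : ∀ E ∈ S, GoodDiv G r E) {E : Divisor K F}
    (hE : E ∈ AddSubgroup.closure S) : GoodDiv G r E := by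
  induction hE using AddSubgroup.closure_induction with
  | mem E hE => exact hS E hE
  | zero =>
    refine ⟨1, G.O.one_mem, ?_, fun P => ?_, fun Q => ?_⟩
    · have : (⟨1, G.O.one_mem⟩ : G.O) = 1 := rfl
      rw [this, map_one]
      exact one_ne_zero
    · rw [Place.ord_one]
      rfl
    · have : (⟨1, G.O.one_mem⟩ : G.O) = 1 := rfl
      rw [this, map_one, Place.ord_one, Finsupp.mapDomain_zero]
      rfl
  | add E E' _ _ hE hE' =>
    obtain ⟨f, hf, h0, h1, h2⟩ := hE
    obtain ⟨f', hf', h0', h1', h2'⟩ := hE'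
    refine ⟨f * f', G.O.mul_mem _ _ hf hf', ?_, fun P => ?_, fun Q => ?_⟩
    · rw [G.ρ_mul hf hf']
      exact mul_ne_zero h0 h0'
    · rw [P.ord_mul (ne_zero_of_ρ hf h0) (ne_zero_of_ρ hf' h0'), Finsupp.add_apply, h1, h1']
    · rw [G.ρ_mul hf hf', Q.ord_mul h0 h0', Finsupp.mapDomain_add, Finsupp.add_apply, h2, h2']
  | neg E _ hE =>
    obtain ⟨f, hf, h0, h1, h2⟩ := hE
    refine ⟨f⁻¹, G.inv_mem_of_ρ_ne_zero hf h0, ?_, fun P => ?_, fun Q => ?_⟩
    · rw [G.ρ_inv hf h0]
      exact inv_ne_zero h0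
    · rw [P.ord_inv, Finsupp.neg_apply, h1]
    · rw [G.ρ_inv hf h0, Q.ord_inv, ← Finsupp.mapDomain.addMonoidHom_apply, map_neg,
        Finsupp.mapDomain.addMonoidHom_apply, Finsupp.neg_apply, h2]

/-- The `r`-side: a divisor whose reduction is principal and whose `m`-th multiple is
principal, is principal. -/
theorem TorsKummer.isPrincipal_of_red [IsFF k F'] [IsAlgClosed k] {G : GaussData K F k F'}
    (T : TorsKummer G) {r : Place K F → Place k F'} {m : ℕ} (hm : (m : k) ≠ 0) {D : Divisor K F}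
    (hmD : GoodDiv G r (m • D)) (hD : Divisor.IsPrincipal (Finsupp.mapDomain r D)) :
    Divisor.IsPrincipal D := by
  obtain ⟨f, hf, h0, h1, h2⟩ := hmD
  obtain ⟨g, hg0, hg⟩ := hD
  have hm0 : m ≠ 0 := by
    rintro rfl
    exact hm Nat.cast_zero
  obtain ⟨c, hc0, hc⟩ := exists_const_mul (K := k) (f := G.ρ ⟨f, hf⟩) (g := g ^ m) h0
    (pow_ne_zero _ hg0) (by
      intro Q
      rw [FF.ord_pow, ← hg Q, ← h2 Q, ← Finsupp.mapDomain.addMonoidHom_apply, map_nsmul,
        Finsupp.mapDomain.addMonoidHom_apply, Finsupp.smul_apply, nsmul_eq_mul])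
  obtain ⟨d, hd⟩ := IsAlgClosed.exists_pow_nat_eq c (Nat.pos_of_ne_zero hm0)
  have hd0 : d ≠ 0 := by
    rintro rfl
    rw [zero_pow hm0] at hd
    exact hc0 hd.symm
  refine T m D f hf (algebraMap k F' d * g) hm (fun P => ?_)
    (mul_ne_zero ((map_ne_zero_iff _ (algebraMap k F').injective).mpr hd0) hg0) ?_
  · rw [← h1 P, Finsupp.smul_apply, nsmul_eq_mul]
  · rw [hc, mul_pow, ← map_pow, hd]

end Fermat.Agent.S18aux
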