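import Mathlib
import Fermat.Agent.S18.Level
import Fermat.Agent.S18.Side
import Fermat.Agent.TEll.Gauss
import Fermat.Prelude.Def_ModularCurve_ReductionModL
import Fermat.Prelude.Def_EllipticCurve_FrobeniusTrace

set_option autoImplicit false

noncomputable section

/-! The final reduction of S18 to (H2), (H3). -/

open Module AlgebraicCurve ModularCurve Fermat.Agent.Deuring
open scoped IntermediateField Fermat.Agent.GaussVal
open Fermat.Agent.FF Fermat.Agent.RR Fermat.Agent.GaussVal

namespace Fermat.Agent.S18aux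

variable {A : ValuationSubring KK} {ℓ : ℕ} (hℓ : ℓ.Prime) (hA : A.LiesOverPrime ℓ)
variable {N : ℕ}

include hℓ hA in
theorem natCast_ne_zero {m : ℕ} (hm : ¬ ℓ ∣ m) : (m : IsLocalRing.ResidueField A) ≠ 0 := by
  have : Fact ℓ.Prime := ⟨hℓ⟩
  have := TEll.charP_residueField A ℓ hA
  intro h
  exact hm ((CharP.cast_eq_zero_iff (IsLocalRing.ResidueField A) ℓ m).mp h)

theorem goodDiv_of_integral (h : DegEq A N)
    {r : Place KK (modularFunctionFieldBar N) →
      Place (IsLocalRing.ResidueField A) (modularFunctionFieldFullC (IsLocalRing.ResidueField A) N)}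
    (hr : IsPlaceReductionModL A N r) {E : Divisor KK (modularFunctionFieldBar N)}
    (hE : E ∈ integralPrincipalDivisors A (IsLocalRing.residue A) N) :
    GoodDiv (modG hℓ hA h) r E := by
  obtain ⟨y, hy, hyk, hne, hD⟩ := hE
  have hO : (⟨coeffMap A.subtype y, hy⟩ : modularFunctionFieldBar N) ∈ (modG hℓ hA h).O :=
    (mem_modG_O hℓ hA).mpr (incl_mem y)
  have hρ : (modG hℓ hA h).ρ ⟨_, hO⟩ = ⟨coeffMap (IsLocalRing.residue A) y, hyk⟩ := by
    apply Subtype.ext
    exact (coe_modG_ρ' hℓ hA hO (incl_mem y) rfl).trans (gaussRed_incl y _)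
  refine ⟨_, hO, ?_, hD, ?_⟩
  · rw [hρ]
    intro h0
    exact hne (congrArg Subtype.val h0)
  · intro Q
    rw [hρ]
    exact hr.2 y hy hyk hne E hD Q

/-- S18 from `T(N)`. -/
theorem eq_zero_of_tors (hdeg : DegEq A N) (T : TorsKummer (modG hℓ hA hdeg))
    (h : ReductionInputsModL A N) (m : ℕ) (hm : ¬ ℓ ∣ m) (z : JZero N)
    (hmz : m • z = 0) (hz : reductionModL A N z = 0) : z = 0 := by
  have := hdeg.isFF'
  obtain ⟨D, rfl⟩ := Pic0.mk_surjective z
  have hr := isPlaceReductionModL_placeReductionModL h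
  have hgen : PrincipalGeneratedByIntegral A (IsLocalRing.residue A) N := h.choose_spec.2
  have h1 : (m • D : Divisor.degZero (K := KK) (F := modularFunctionFieldBar N)) ∈
      (Divisor.principal (K := KK) (F := modularFunctionFieldBar N)).addSubgroupOf
        Divisor.degZero := by
    rw [← QuotientAddGroup.eq_zero_iff]
    exact hmz
  rw [AddSubgroup.mem_addSubgroupOf] at h1
  rw [reductionModL_mk h] at hz
  have h2 := (QuotientAddGroup.eq_zero_iff _).mp hz
  rw [AddSubgroup.mem_addSubgroupOf, coe_reductionDegZeroAlong] at h2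
  have h3 : GoodDiv (modG hℓ hA hdeg) (placeReductionModL h)
      (m • (D : Divisor KK (modularFunctionFieldBar N))) := by
    refine GoodDiv.of_closure (fun E hE => goodDiv_of_integral hℓ hA hdeg hr hE) (hgen ?_)
    exact h1
  have h4 := T.isPrincipal_of_red (natCast_ne_zero hℓ hA hm) h3 h2
  apply (QuotientAddGroup.eq_zero_iff _).mpr
  rw [AddSubgroup.mem_addSubgroupOf]
  exact h4

end Fermat.Agent.S18aux
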