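import Mathlib
import Fermat.Agent.S18.Final

set_option autoImplicit false

noncomputable section

/-! S18 from the degree theorem (H3) and the genus inequality (H2). -/

open Module AlgebraicCurve ModularCurve Fermat.Agent.Deuring
open scoped IntermediateField Fermat.Agent.GaussVal
open Fermat.Agent.FF Fermat.Agent.RR Fermat.Agent.GaussVal

namespace Fermat.Agent.S18aux

theorem finrank_jEl {K : Type*} [Field K] {E : IntermediateField K (LaurentSeries K)} {N : ℕ}
    (hE : E = modularFunctionFieldFullC K N) :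
    finrank K⟮jEl K E N hE⟯ E =
      finrank K⟮jEl K (modularFunctionFieldFullC K N) N rfl⟯ (modularFunctionFieldFullC K N) := by
  subst hE
  rfl

theorem dedekindPsi_pos {N : ℕ} (hN : N ≠ 0) : 0 < dedekindPsi N := by
  rw [dedekindPsi]
  refine Finset.sum_pos' (fun _ _ => Nat.zero_le _) ⟨1, ?_, ?_⟩
  · rw [Finset.mem_filter, Nat.mem_divisors]
    exact ⟨⟨one_dvd N, hN⟩, squarefree_one⟩
  · rw [Nat.div_one]
    exact Nat.pos_of_ne_zero hN

/-- the degree theorem for the field `k` at level `N` -/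
def DegThm (k : Type*) [Field k] (N : ℕ) : Prop :=
  finrank k⟮(⟨jqModC k, jqModC_mem_full k N⟩ : modularFunctionFieldFullC k N)⟯
    (modularFunctionFieldFullC k N) = dedekindPsi N

theorem DegEq.of_degThm {A : ValuationSubring KK} {N : ℕ} (hN : N ≠ 0)
    (h1 : DegThm KK N) (h2 : DegThm (IsLocalRing.ResidueField A) N) : DegEq A N := by
  have e1 : finrank KK⟮jEl KK (modularFunctionFieldBar N) N (bar_eq N)⟯
      (modularFunctionFieldBar N) = dedekindPsi N := by
    rw [finrank_jEl (bar_eq N)]
    exact h1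
  exact ⟨by rw [e1]; exact dedekindPsi_pos hN, by rw [e1]; exact h2.symm⟩

/-- **S18** from the degree theorem at `N`, `N'` and the genus inequality at `N'`. -/
theorem main (N : ℕ) [NeZero N] {ℓ : ℕ}
    [Fact ℓ.Prime] (A : ValuationSubring (AlgebraicClosure ℚ)) (hA : A.LiesOverPrime ℓ)
    (N' : ℕ) (hN' : N' ≠ 0) (hd : N ∣ N')
    (h3 : DegThm KK N) (h3A : DegThm (IsLocalRing.ResidueField A) N)
    (h3' : DegThm KK N') (h3A' : DegThm (IsLocalRing.ResidueField A) N')
    (h2 : genusFF KK (modularFunctionFieldBar N') ≤ genusFF (IsLocalRing.ResidueField A)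
      (modularFunctionFieldFullC (IsLocalRing.ResidueField A) N'))
    (h : ModularCurve.ReductionInputsModL A N) (m : ℕ) (hm : ¬ ℓ ∣ m) (z : ModularCurve.JZero N)
    (hmz : m • z = 0) (hz : ModularCurve.reductionModL A N z = 0) :
    z = 0 := by
  have hℓ : ℓ.Prime := Fact.out
  have hdeg : DegEq A N := DegEq.of_degThm (NeZero.ne N) h3 h3A
  have hdeg' : DegEq A N' := DegEq.of_degThm hN' h3' h3A'
  exact eq_zero_of_tors hℓ hA hdeg (torsKummer_of_genus hℓ hA hN' hd hdeg hdeg' h2) h m hm z hmz hz

end Fermat.Agent.S18aux
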