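import Mathlib
import Fermat.Agent.S18.Main
import Fermat.Agent.Igusa.Degree

set_option autoImplicit false

noncomputable section

/-! S18 from the genus inequality (H2) at one multiple `N'` of `N`; the degree theorem (H3) is
`Igusa.finrank_full`. -/

open Module AlgebraicCurve ModularCurve Fermat.Agent.Deuring
open scoped IntermediateField Fermat.Agent.GaussVal
open Fermat.Agent.FF Fermat.Agent.RR Fermat.Agent.GaussVal

namespace Fermat.Agent.S18aux

theorem degThm (k : Type*) [Field k] {N : ℕ} (h0 : N ≠ 0) (hN : (N : k) ≠ 0) : DegThm k N := by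
  have : NeZero N := ⟨h0⟩
  exact Igusa.finrank_full k N hN

/-- the auxiliary level: a multiple of `N` and of `4` (`ℓ` odd) or `9` (`ℓ = 2`), prime to `ℓ` -/
def auxLevel (ℓ N : ℕ) : ℕ := if ℓ = 2 then 9 * N else 4 * N

theorem auxLevel_ne_zero (ℓ : ℕ) {N : ℕ} (hN : N ≠ 0) : auxLevel ℓ N ≠ 0 := by
  unfold auxLevel
  split_ifs <;> omega

theorem dvd_auxLevel (ℓ N : ℕ) : N ∣ auxLevel ℓ N := by
  unfold auxLevel
  split_ifs
  · exact Dvd.intro_left _ rfl
  · exact Dvd.intro_left _ rfl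

theorem not_dvd_auxLevel {ℓ N : ℕ} (hℓ : ℓ.Prime) (h : ¬ ℓ ∣ N) : ¬ ℓ ∣ auxLevel ℓ N := by
  unfold auxLevel
  split_ifs with h2
  · subst h2
    intro hd
    rcases hℓ.dvd_mul.mp hd with h | h'
    · omega
    · exact h h'
  · intro hd
    rcases hℓ.dvd_mul.mp hd with h' | h'
    · have : ℓ ∣ 2 ^ 2 := h'
      exact h2 ((Nat.prime_dvd_prime_iff_eq hℓ Nat.prime_two).mp (hℓ.dvd_of_dvd_pow this))
    · exact h h'

theorem auxLevel_dvd {ℓ N : ℕ} : (ℓ = 2 → 9 ∣ auxLevel ℓ N) ∧ (ℓ ≠ 2 → 4 ∣ auxLevel ℓ N) := by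
  constructor
  · intro h
    simp [auxLevel, h]
  · intro h
    simp [auxLevel, h]

/-- **S18** from the genus inequality at level `auxLevel ℓ N`. -/
theorem concl (N : ℕ) [NeZero N] {ℓ : ℕ}
    [Fact ℓ.Prime] (hℓN : ¬ ℓ ∣ N) (A : ValuationSubring (AlgebraicClosure ℚ))
    (hA : A.LiesOverPrime ℓ)
    (h2 : genusFF KK (modularFunctionFieldBar (auxLevel ℓ N)) ≤ genusFF (IsLocalRing.ResidueField A)
      (modularFunctionFieldFullC (IsLocalRing.ResidueField A) (auxLevel ℓ N)))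
    (h : ModularCurve.ReductionInputsModL A N) (m : ℕ) (hm : ¬ ℓ ∣ m) (z : ModularCurve.JZero N)
    (hmz : m • z = 0) (hz : ModularCurve.reductionModL A N z = 0) :
    z = 0 := by
  have hℓ : ℓ.Prime := Fact.out
  have h0 : N ≠ 0 := NeZero.ne N
  have h0' : auxLevel ℓ N ≠ 0 := auxLevel_ne_zero ℓ h0
  exact main N A hA (auxLevel ℓ N) h0' (dvd_auxLevel ℓ N)
    (degThm KK h0 (Nat.cast_ne_zero.mpr h0))
    (degThm _ h0 (natCast_ne_zero hℓ hA hℓN))
    (degThm KK h0' (Nat.cast_ne_zero.mpr h0'))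
    (degThm _ h0' (natCast_ne_zero hℓ hA (not_dvd_auxLevel hℓ hℓN)))
    h2 h m hm z hmz hz

end Fermat.Agent.S18aux
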